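import Fermat.Agent.S48.M.Dict.HolAux
import Fermat.Agent.S48.M.Fld.Cusp
import Fermat.Agent.S48.M.Fld.Interior
import Fermat.Agent.S29.Dict

/-!
# S48 / M-DICT : the divisor of a Kummer element is divisible by `m`  (port of `S29/Dict.lean` to `L : Lvl`)
-/

set_option autoImplicit false

open UpperHalfPlane ModularForm WithZero ModularCurve AlgebraicCurve CongruenceSubgroup
open IntermediateField Fermat.Agent.S24 Fermat.Agent.S29
open scoped MatrixGroups Manifold

noncomputable section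

namespace Fermat.Agent.S48.M

theorem dvd_ord_interiorL (L : Lvl) (m : ℕ) (c₀ : Kb) (τ : ℍ) (E : ℕ) (hE : 0 < E)
    (g : SL(2, ℤ)) (hfix : g • τ = τ)
    (hval : holVal τ (jH - algebraMap ℂ Hol (kappa c₀)) = exp (-(E : ℤ)))
    (hdiv : ∀ (h : ℕ) (x : Mer), x ≠ 0 → merAct (g ^ h) x = x →
      (E : ℤ) ∣ (h : ℤ) * log (ordAt τ x))
    (n : ℕ) (hn : n ≠ 0) (hgn : g ^ n = 1)
    (c : Additive (L.Γ) →+ ℤ) (u : FL L) (hu0 : u ≠ 0) (h : Mer) (hh0 : h ≠ 0)
    (hpow : iotaL L u = h ^ m) (hchar : HasCharL L m c h)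
    (v : Place Kb (FL L)) (hv : 0 < v.ord (jL L - algebraMap Kb (FL L) c₀)) :
    (m : ℤ) ∣ v.ord u := by
  have := dict_finite_QL L
  obtain ⟨i, hi⟩ := ord_formula (jL L - algebraMap Kb (FL L) c₀)
    (transcendental_sub_const _ _ (transcendental_jL L)) (finiteDimensional_subL L c₀)
    (ordAt τ) (sigmaL L) (sigmaL_injective L) (finrank_subL L c₀).symm
    (fun i j a => by rw [sigmaL_algebraMap, sigmaL_algebraMap])
    (fun i j => by rw [sigmaL_jL_sub, sigmaL_jL_sub])
    (fun i a => by rw [sigmaL_algebraMap]; exact ordAt_const _ _)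
    E hE (fun i => by rw [sigmaL_jL_sub, ordAt_algebraMap, hval]) g
    (fun i f => by
      rw [sigmaL_smul, ordAt_merAct]
      congr 2
      rw [inv_smul_eq_iff, hfix])
    (fun i f hf => by
      apply hdiv
      · exact (map_ne_zero _).mpr hf
      · rw [← sigmaL_smul, pow_minimalPeriod_smulL]) v hv
  have h1 := hi u hu0
  set P := Function.minimalPeriod (fun x : QL L => g • x) i with hP
  set x := merAct i.out h with hx
  have hx0 : x ≠ 0 := (map_ne_zero _).mpr hh0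
  have h2 : sigmaL L i u = x ^ m := by
    rw [sigmaL_apply, hpow, map_pow]
  rw [h2, map_pow, WithZero.log_pow, nsmul_eq_mul] at h1
  refine dvd_of_formula hE h1 (hdiv P x hx0 ?_)
  refine merAct_fixL hchar i (g ^ P) (pow_minimalPeriod_smulL g i) (fun δ hδ => ?_)
  refine hom_eq_zero_of_powL c δ n hn ?_
  apply Subtype.ext
  rw [SubgroupClass.coe_pow, hδ, OneMemClass.coe_one]
  have : (i.out⁻¹ * g ^ P * i.out) ^ n = i.out⁻¹ * (g ^ P) ^ n * i.out := by
    have := conj_pow (a := i.out⁻¹) (b := g ^ P) (i := n)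
    simpa using this
  rw [this, ← pow_mul, mul_comm, pow_mul, hgn, one_pow]
  group

open Cusp in
theorem dvd_ord_cuspL (L : Lvl) (m : ℕ) (hm : m ≠ 0)
    (c : Additive (L.Γ) →+ ℤ) (hc : c ∈ XL L) (u : FL L) (hu0 : u ≠ 0) (h : Mer) (hh0 : h ≠ 0)
    (hpow : iotaL L u = h ^ m) (hchar : HasCharL L m c h)
    (v : Place Kb (FL L)) (hv : v.ord (jL L) < 0) :
    (m : ℤ) ∣ v.ord u := by
  have hy : Transcendental Kb (jL L)⁻¹ := fun h =>
    transcendental_jL L (by simpa using h.inv)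
  have hfin : FiniteDimensional Kb⟮(jL L)⁻¹⟯ (FL L) := by
    rw [adjoin_invL]; exact finiteDimensional_FL L
  have hcard : Nat.card (QL L) = Module.finrank Kb⟮(jL L)⁻¹⟯ (FL L) := by
    rw [adjoin_invL]; exact (finrank_FL L).symm
  have : Finite (QL L) := by
    apply Nat.finite_of_card_ne_zero
    rw [hcard]
    exact (Module.finrank_pos).ne'
  obtain ⟨i, hi⟩ := ord_formula (K := Kb) (F := FL L) (jL L)⁻¹ hy hfin (wB L.n)
    (sigmaBL L) (sigmaBL_injective L) hcard
    (fun i j a => by rw [sigmaBL_algebraMap, sigmaBL_algebraMap])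
    (fun i j => by rw [map_inv₀, map_inv₀, sigmaBL_jL, sigmaBL_jL])
    (fun i a => by rw [sigmaBL_algebraMap]; exact wB_const_le L.n _)
    L.n (Nat.pos_of_ne_zero (NeZero.ne L.n))
    (fun i => by rw [map_inv₀, map_inv₀, sigmaBL_jL, wB_jB, ← exp_neg])
    ModularGroup.T
    (fun i f => by
      apply wB_eq_of_merAct L.n 1
      rw [emb_sigmaBL, emb_sigmaBL, sigmaL_smul, zpow_one])
    (fun i f hf => by
      apply dvd_of_merAct L.n
      · exact (map_ne_zero _).mpr hf
      · rw [emb_sigmaBL, zpow_natCast, ← sigmaL_smul, pow_minimalPeriod_smulL]) v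
    (by rw [Place.ord_inv]; omega)
  have h1 := hi u hu0
  set P := Function.minimalPeriod (fun x : QL L => ModularGroup.T • x) i with hP
  set x := merAct i.out h with hx
  have hx0 : x ≠ 0 := (map_ne_zero _).mpr hh0
  have hpar : ∀ (k : ℤ) (δ : L.Γ), (δ : SL(2, ℤ)) = i.out⁻¹ * ModularGroup.T ^ k * i.out →
      c (Additive.ofMul δ) = 0 := by
    intro k δ hδ
    apply hc δ
    rw [hδ, Fermat.Agent.S21.DimBound.trace_conj_T_zpow]
    norm_num
  have hTN : ModularGroup.T ^ (L.n : ℤ) • i = i := by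
    have h2 := conj_T_pow_memL L i.out⁻¹
    rw [inv_inv] at h2
    have h3 : ((i.out : SL(2, ℤ)) : QL L) = ((ModularGroup.T ^ (L.n : ℤ) * i.out : SL(2, ℤ)) : QL L) :=
      QuotientGroup.eq.mpr (by rwa [← mul_assoc])
    have h4 : ModularGroup.T ^ (L.n : ℤ) • ((i.out : SL(2, ℤ)) : QL L) =
      ((ModularGroup.T ^ (L.n : ℤ) * i.out : SL(2, ℤ)) : QL L) := rfl
    rw [← h3, QuotientGroup.out_eq'] at h4
    exact h4
  have hper : merAct (ModularGroup.T ^ (L.n : ℤ)) x = x :=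
    merAct_fixL hchar i _ hTN (hpar _)
  have h2 : x ^ m = emb L.n (sigmaBL L i u) := by
    rw [emb_sigmaBL, sigmaL_apply, hpow, map_pow]
  obtain ⟨xB, hxB⟩ := exists_merB_of_pow L.n m hm x _ h2 hper
  have hxB0 : xB ≠ 0 := by
    rintro rfl
    rw [map_zero] at hxB
    exact hx0 hxB.symm
  have h3 : sigmaBL L i u = xB ^ m := by
    apply emb_injective L.n
    rw [← h2, map_pow, hxB]
  rw [h3, map_pow, WithZero.log_pow, nsmul_eq_mul] at h1
  refine dvd_of_formula (Nat.pos_of_ne_zero (NeZero.ne L.n)) h1 (dvd_of_merAct L.n P xB hxB0 ?_)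
  rw [hxB]
  refine merAct_fixL hchar i _ ?_ (hpar _)
  rw [zpow_natCast]
  exact pow_minimalPeriod_smulL _ i

theorem dict_pdiv_of_isKummerL (L : Lvl) (m : ℕ) (c : Additive (L.Γ) →+ ℤ) (hc : c ∈ XL L)
    (u : FL L) (hu : IsKummerL L m c u) : PDiv Kb (FL L) m u := by
  obtain ⟨h, hh0, hpow, hchar⟩ := hu
  have hu0 : u ≠ 0 := by
    rintro rfl
    rw [map_zero] at hpow
    exact hh0 (eq_zero_of_pow_eq_zero hpow.symm)
  refine ⟨hu0, fun v => ?_⟩
  by_cases hm : m = 0
  · subst hm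
    rw [pow_zero] at hpow
    have : u = 1 := (iotaL L).injective (by rw [hpow, map_one])
    rw [this, Place.ord_one]
    exact dvd_zero _
  by_cases hv : v.ord (jL L) < 0
  · exact dvd_ord_cuspL L m hm c hc u hu0 h hh0 hpow hchar v hv
  obtain ⟨c₀, hc₀⟩ := Diff.exists_ord_sub_pos (jL L) (transcendental_jL L) (finiteDimensional_FL L)
    v hv
  by_cases h0 : c₀ = 0
  · subst h0
    refine dvd_ord_interiorL L m 0 rho 3 (by norm_num) (ModularGroup.S * ModularGroup.T) ST_smul_rho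
      ?_ three_dvd_of_merAct_ST_pow 6 (by norm_num) ?_ c u hu0 h hh0 hpow hchar v hc₀
    · rw [map_zero, map_zero, sub_zero, holVal_jH_rho]
      rfl
    · rw [show (6 : ℕ) = 3 * 2 by norm_num, pow_mul, ST_pow_three]
      simp
  by_cases h1 : c₀ = 1728
  · subst h1
    refine dvd_ord_interiorL L m 1728 I 2 (by norm_num) ModularGroup.S S_smul_I
      ?_ two_dvd_of_merAct_S_pow 4 (by norm_num) ?_ c u hu0 h hh0 hpow hchar v hc₀
    · rw [map_ofNat, holVal_jH_sub_I]
      rfl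
    · rw [show (4 : ℕ) = 2 * 2 by norm_num, pow_mul, S_pow_two]
      simp
  obtain ⟨τ, hτ⟩ := exists_jH_eq (kappa c₀)
  have hk0 : kappa c₀ ≠ 0 := (map_ne_zero kappa).mpr h0
  have hk1 : kappa c₀ ≠ 1728 := by
    intro h
    apply h1
    apply kappa.injective
    rw [h, map_ofNat]
  have hval := holVal_jH_sub τ (by rw [hτ]; exact hk0) (by rw [hτ]; exact hk1)
  rw [hτ] at hval
  refine dvd_ord_interiorL L m c₀ τ 1 one_pos 1 (one_smul _ _) (by rw [hval]; rfl)
    (fun _ _ _ _ => by simp) 1 one_ne_zero (one_pow _) c u hu0 h hh0 hpow hchar v hc₀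

end Fermat.Agent.S48.M
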