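import Fermat.Agent.S48.M.Lvl
import Fermat.Agent.S29.HolAux

/-!
# S48 / M-DICT : port of `S29/HolAux.lean` to an abstract level `L : Lvl`
-/

set_option autoImplicit false

open UpperHalfPlane ModularForm WithZero ModularCurve AlgebraicCurve CongruenceSubgroup
open Fermat.Agent.S24 Fermat.Agent.S29
open scoped MatrixGroups Manifold

noncomputable section

namespace Fermat.Agent.S48.M

theorem dict_finiteIndex (L : Lvl) : L.Γ.FiniteIndex :=
  have : NeZero L.n := ⟨L.n_ne⟩
  Subgroup.finiteIndex_of_le L.Gamma_le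

theorem dict_finite_QL (L : Lvl) : Finite (QL L) :=
  have := dict_finiteIndex L
  Subgroup.finite_quotient_of_finiteIndex

/-- if `γ` fixes the coset `q` and `c` kills the corresponding element of `L.Γ`, then `γ` fixes
the translate `merAct q.out h`. -/
theorem merAct_fixL {L : Lvl} {m : ℕ} {c : Additive L.Γ →+ ℤ} {h : Mer} (hchar : HasCharL L m c h)
    (q : QL L) (γ : SL(2, ℤ)) (hq : γ • q = q)
    (hc0 : ∀ δ : L.Γ, (δ : SL(2, ℤ)) = q.out⁻¹ * γ * q.out → c (Additive.ofMul δ) = 0) :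
    merAct γ (merAct q.out h) = merAct q.out h := by
  have hmem : q.out⁻¹ * γ * q.out ∈ L.Γ := by
    have h1 : ((γ * q.out : SL(2, ℤ)) : QL L) = (q.out : QL L) := by
      have : γ • ((q.out : SL(2, ℤ)) : QL L) = ((γ * q.out : SL(2, ℤ)) : QL L) := rfl
      rw [← this, QuotientGroup.out_eq', hq]
    have h2 := QuotientGroup.eq.mp h1.symm
    rwa [← mul_assoc] at h2
  have h3 := hchar ⟨_, hmem⟩
  rw [hc0 ⟨_, hmem⟩ rfl, zet_zero, map_one, one_mul] at h3
  have h4 : γ * q.out = q.out * (q.out⁻¹ * γ * q.out) := by group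
  rw [← merAct_mul, h4, merAct_mul]
  exact congrArg _ h3

/-- a homomorphism to `ℤ` kills torsion -/
theorem hom_eq_zero_of_powL {L : Lvl} (c : Additive L.Γ →+ ℤ) (δ : L.Γ) (n : ℕ)
    (hn : n ≠ 0) (h : δ ^ n = 1) : c (Additive.ofMul δ) = 0 := by
  have h1 : n • c (Additive.ofMul δ) = 0 := by
    rw [← map_nsmul, ← ofMul_pow, h, ofMul_one, map_zero]
  rcases smul_eq_zero.mp h1 with h2 | h2
  · exact absurd h2 hn
  · exact h2

theorem pow_minimalPeriod_smulL {L : Lvl} (g : SL(2, ℤ)) (i : QL L) :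
    g ^ Function.minimalPeriod (fun x : QL L => g • x) i • i = i := by
  have := Function.iterate_minimalPeriod (f := (g • · : QL L → QL L)) (x := i)
  rwa [smul_iterate] at this

end Fermat.Agent.S48.M
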