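import Fermat.Agent.S48.M.Dict.UniqueAux
import Fermat.Agent.S29.Unique

/-!
# S48 / M-DICT : uniqueness of the Kummer element, injectivity of `c ↦ [u_c]`  (port of `S29/Unique.lean` to `L : Lvl`)
-/

set_option autoImplicit false

open UpperHalfPlane ModularForm WithZero ModularCurve AlgebraicCurve CongruenceSubgroup
open Fermat.Agent.S24 Fermat.Agent.S29
open scoped MatrixGroups Manifold

noncomputable section

namespace Fermat.Agent.S48.M

/-- a `L.Γ`-invariant `m`-th root of an element of the function field is in the function field -/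
theorem exists_root_of_invariantL (L : Lvl) (m : ℕ) (hm : m ≠ 0) (v : FL L) (x : Mer)
    (hx : x ^ m = iotaL L v) (hinv : ∀ γ : L.Γ, merAct (γ : SL(2, ℤ)) x = x) :
    ∃ r : FL L, iotaL L r = x :=
  exists_root_of_invariantL' L m hm v x hx hinv

theorem dict_isKummerL_unique (L : Lvl) (m : ℕ) (hm : m ≠ 0) (c : Additive (L.Γ) →+ ℤ)
    (u u' : FL L) (hu : IsKummerL L m c u) (hu' : IsKummerL L m c u') :
    ∃ r : FL L, u = u' * r ^ m := by
  obtain ⟨h, h0, hum, hc⟩ := hu
  obtain ⟨h', h0', hum', hc'⟩ := hu'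
  obtain ⟨r, hr⟩ := exists_root_of_invariantL L m hm (u / u') (h / h')
    (by rw [div_pow, map_div₀, hum, hum'])
    (fun γ => by rw [map_div₀, hc γ, hc' γ, mul_div_mul_left _ _ (algebraMap_zet_ne_zero _ _)])
  refine ⟨r, (iotaL L).injective ?_⟩
  rw [map_mul, map_pow, hr, div_pow, hum, hum']
  have : h' ^ m ≠ 0 := pow_ne_zero m h0'
  field_simp

theorem dict_isKummerL_mul (L : Lvl) (m : ℕ) (c c' : Additive (L.Γ) →+ ℤ)
    (u u' : FL L) (hu : IsKummerL L m c u) (hu' : IsKummerL L m c' u') :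
    IsKummerL L m (c + c') (u * u') := by
  obtain ⟨h, h0, hum, hc⟩ := hu
  obtain ⟨h', h0', hum', hc'⟩ := hu'
  refine ⟨h * h', mul_ne_zero h0 h0', by rw [map_mul, hum, hum', mul_pow], fun γ => ?_⟩
  rw [map_mul, hc γ, hc' γ, AddMonoidHom.add_apply, zet_add, map_mul]
  ring

/-- injectivity of `XL L / m → W_m` -/
theorem dict_dvd_of_isKummerL_pow (L : Lvl) (m : ℕ) (hm : m ≠ 0) (c : Additive (L.Γ) →+ ℤ)
    (r : FL L) (hu : IsKummerL L m c (r ^ m)) :
    ∀ γ : L.Γ, (m : ℤ) ∣ c (Additive.ofMul γ) := by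
  obtain ⟨h, h0, hum, hc⟩ := hu
  intro γ
  have hr0 : iotaL L r ≠ 0 := by
    intro h1
    rw [map_pow, h1, zero_pow hm] at hum
    exact h0 (pow_eq_zero_iff hm |>.mp hum.symm)
  -- `h / iota r` is a constant root of unity
  have h1 : (h / iotaL L r) ^ m = 1 := by
    rw [div_pow, ← hum, map_pow, div_self (pow_ne_zero m hr0)]
  have hprim : IsPrimitiveRoot (algebraMap ℂ Mer (Complex.exp (2 * Real.pi * Complex.I / m))) m :=
    (Complex.isPrimitiveRoot_exp m hm).map_of_injective (algebraMap ℂ Mer).injective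
  have : NeZero m := ⟨hm⟩
  obtain ⟨i, -, hi⟩ := hprim.eq_pow_of_pow_eq_one h1
  have h2 : h = algebraMap ℂ Mer (Complex.exp (2 * Real.pi * Complex.I / m) ^ i) * iotaL L r := by
    rw [map_pow, hi, div_mul_cancel₀ _ hr0]
  have h3 := hc γ
  have h4 : merAct (γ : SL(2, ℤ)) h = h := by
    rw [h2, map_mul, merAct_const, merAct_iotaL_of_mem L γ.2]
  rw [h4] at h3
  have h5 : algebraMap ℂ Mer (zet m (c (Additive.ofMul γ))) = 1 := by
    have := mul_right_cancel₀ h0 (h3.symm.trans (one_mul h).symm)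
    exact this
  apply dvd_of_zet_eq_one m hm
  apply (algebraMap ℂ Mer).injective
  rw [h5, map_one]

end Fermat.Agent.S48.M
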