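import Fermat.Agent.S48.M.Dict.HolAux
import Fermat.Agent.S48.M.Fld.Cusp
import Fermat.Agent.S48.M.Fld.Interior
import Fermat.Agent.S29.UniqueAux

/-!
# S48 / M-DICT : port of `S29/UniqueAux.lean` to `L : Lvl`
-/

set_option autoImplicit false

open UpperHalfPlane ModularForm WithZero ModularCurve AlgebraicCurve CongruenceSubgroup
open Fermat.Agent.S24 Fermat.Agent.S24.MerAux Fermat.Agent.S29 Fermat.Agent.S29.K2
open scoped MatrixGroups Manifold

noncomputable section

namespace Fermat.Agent.S48.M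

open Matrix.SpecialLinearGroup in
/-- a `L.Γ`-invariant `m`-th root of an element of the function field is a quotient of modular
forms -/
theorem isQuotL_of_pow (L : Lvl) (m : ℕ) (hm : m ≠ 0) (v : FL L) (x : Mer)
    (hx : x ^ m = iotaL L v) (hinv : ∀ γ : L.Γ, merAct (γ : SL(2, ℤ)) x = x) :
    IsQuotL L.Γ x := by
  have := dict_finiteIndex L
  obtain ⟨n, A, B, hB, hAB⟩ := exists_quotL L v
  have hBH : mfHol B ≠ 0 := by
    intro h
    apply hB
    ext τ
    exact congrFun (congrArg Subtype.val h) τ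
  have hBM := algebraMap_ne_zero hBH
  obtain ⟨m', rfl⟩ : ∃ m', m = m' + 1 := Nat.exists_eq_succ_of_ne_zero hm
  have hy : (x * algebraMap Hol Mer (mfHol B)) ^ (m' + 1) =
      algebraMap Hol Mer (mfHol A * mfHol B ^ m') := by
    rw [mul_pow, hx, pow_succ' (algebraMap Hol Mer (mfHol B)), ← mul_assoc, hAB, map_mul, map_pow]
  obtain ⟨f, hf⟩ := exists_hol_of_pow _ hm _ _ hy
  have hfm : f ^ (m' + 1) = mfHol A * mfHol B ^ m' := by
    apply IsFractionRing.injective Hol Mer
    rw [map_pow, hf, hy]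
  have hxf : x = algebraMap Hol Mer f / algebraMap Hol Mer (mfHol B) := by
    rw [hf, mul_div_cancel_right₀ _ hBM]
  have hinv' : ∀ g ∈ L.Γ, ∀ τ : ℍ, (f : ℍ → ℂ) (g • τ) * B τ = (f : ℍ → ℂ) τ * B (g • τ) := by
    intro g hg τ
    have h1 := hinv ⟨g⁻¹, inv_mem hg⟩
    have hBM' : algebraMap Hol Mer (holAct g⁻¹ (mfHol B)) ≠ 0 := by
      apply algebraMap_ne_zero
      intro h
      exact hBH ((holAct g⁻¹).injective (by rw [h, map_zero]))
    rw [hxf, map_div₀, merAct_algebraMap, merAct_algebraMap, div_eq_div_iff hBM' hBM, ← map_mul,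
      ← map_mul] at h1
    have h2 := IsFractionRing.injective Hol Mer h1
    have h3 : (f : ℍ → ℂ) ((g⁻¹)⁻¹ • τ) * B τ = (f : ℍ → ℂ) τ * B ((g⁻¹)⁻¹ • τ) :=
      congrFun (congrArg Subtype.val h2) τ
    rwa [inv_inv] at h3
  obtain ⟨G, hG⟩ := (show IsMFH (L.Γ) (12 * n) (mfHol A) from ⟨A, rfl⟩).mul
    ((show IsMFH (L.Γ) (12 * n) (mfHol B) from ⟨B, rfl⟩).pow m')
  have hGf : ∀ τ : ℍ, G τ = (f : ℍ → ℂ) τ ^ (m' + 1) := by
    intro τ
    have := congrFun (congrArg Subtype.val (hG.trans hfm.symm)) τ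
    exact this
  let F : ModularForm (L.Γ : Subgroup (GL (Fin 2) ℝ)) (12 * n) :=
    { toFun := f
      slash_action_eq' := by
        rintro γ ⟨g, hg, rfl⟩
        have hBg : ⇑B ∣[(12 * n : ℤ)] (mapGL ℝ g) = ⇑B := B.slash_action_eq' _ ⟨g, hg, rfl⟩
        let f' : Hol := ⟨(f : ℍ → ℂ) ∣[(12 * n : ℤ)] (mapGL ℝ g), f.2.slash _ _⟩
        have h1 : f' * mfHol B = f * mfHol B := by
          ext τ
          show ((f : ℍ → ℂ) ∣[(12 * n : ℤ)] g) τ * B τ = (f : ℍ → ℂ) τ * B τ
          have h2 : (⇑B ∣[(12 * n : ℤ)] g) τ = B τ := congrFun hBg τ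
          rw [SL_slash_apply] at h2 ⊢
          rw [← h2]
          have h3 := hinv' g hg τ
          rw [← h2] at h3
          linear_combination (denom g τ ^ (-(12 * n : ℤ))) * h3
        exact congrArg Subtype.val (mul_right_cancel₀ hBH h1)
      holo' := f.2
      bdd_at_cusps' := fun {c} hc => by
        have hc' := hc
        rw [Subgroup.IsArithmetic.isCusp_iff_isCusp_SL2Z] at hc'
        rw [OnePoint.isBoundedAt_iff_forall_SL2Z hc']
        intro γ hγ
        have h1 : IsBoundedAtImInfty (⇑G ∣[(12 * n + m' * (12 * n) : ℤ)] γ) :=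
          G.bdd_at_cusps' hc (mapGL ℝ γ) hγ
        apply isBoundedAtImInfty_of_pow (m' + 1) hm
        convert h1 using 1
        funext τ
        rw [Pi.pow_apply, SL_slash_apply, SL_slash_apply, hGf, mul_pow,
          ← zpow_natCast (denom _ _ ^ _), ← zpow_mul]
        congr 2
        push_cast
        ring }
  exact ⟨n, f, mfHol B, ⟨F, rfl⟩, ⟨B, rfl⟩, hBH, hf.symm⟩

theorem not_linearIndependent_pow_of_isQuotL (L : Lvl) (x : Mer) (hxQ : IsQuotL L.Γ x) :
    ∃ s : ℕ, ¬ LinearIndependent ℂ (fun i : Fin (s + 1) × Fin (Nat.card (QL L) + 1) =>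
      algebraMap Hol Mer jH ^ (i.1 : ℕ) * x ^ (i.2 : ℕ)) := by
  obtain ⟨m, A, B, hA, hB, hB0, hx⟩ := hxQ
  set p := Nat.card (QL L) with hp
  have hp0 : 0 < p := card_QL_pos L
  refine ⟨m * p ^ 2, fun hli => ?_⟩
  set s := m * p ^ 2 with hs
  have hD : algebraMap Hol Mer (DeltaH ^ s * B ^ p) ≠ 0 := by
    have hΔ0 : DeltaH ≠ 0 := by
      intro h
      exact discriminant_ne_zero I (congrFun (congrArg Subtype.val h) I)
    exact algebraMap_ne_zero (mul_ne_zero (pow_ne_zero _ hΔ0) (pow_ne_zero _ hB0))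
  have h1 := hli.map' (LinearMap.mulLeft ℂ (algebraMap Hol Mer (DeltaH ^ s * B ^ p)))
    (LinearMap.ker_eq_bot.mpr (mul_right_injective₀ hD))
  have h2 : (LinearMap.mulLeft ℂ (algebraMap Hol Mer (DeltaH ^ s * B ^ p))) ∘
      (fun i : Fin (s + 1) × Fin (p + 1) =>
        algebraMap Hol Mer jH ^ (i.1 : ℕ) * x ^ (i.2 : ℕ))
      = (IsScalarTower.toAlgHom ℂ Hol Mer).toLinearMap ∘ famH A B s p := by
    ext1 i
    exact (algebraMap_famH hx s p i).symm
  rw [h2] at h1
  refine not_linearIndependent_of_isMFHL L (s + m * p) (famH A B s p)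
    (isMFH_famHL L m hA hB s p) ?_ h1.of_comp
  rw [Fintype.card_prod, Fintype.card_fin, Fintype.card_fin, ← hp, hs]
  nlinarith

theorem dict_iotaL_eq (L : Lvl) (θ : FL L) : iotaL L θ = phiH (iotaQL L θ) := rfl

open IntermediateField in
/-- a `L.Γ`-invariant `m`-th root of an element of the function field is in the function field -/
theorem exists_root_of_invariantL' (L : Lvl) (m : ℕ) (hm : m ≠ 0) (v : FL L) (x : Mer)
    (hx : x ^ m = iotaL L v) (hinv : ∀ γ : L.Γ, merAct (γ : SL(2, ℤ)) x = x) :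
    ∃ r : FL L, iotaL L r = x := by
  have hQ : IsQuotL L.Γ x := isQuotL_of_pow L m hm v x hx hinv
  obtain ⟨x', hx'⟩ := exists_Qq_of_pow m hm (iotaQL L v) x (by rw [hx, dict_iotaL_eq])
    (hinv ⟨_, inv_mem L.T_mem⟩)
  have hXm : phiS x' ^ m = (v : LaurentSeries Kb) := by
    rw [← phiS_iotaQL, ← map_pow]
    congr 1
    apply phiH.injective
    rw [map_pow, hx', hx, dict_iotaL_eq]
  have hint : IsIntegral (FL L) (phiS x') := by
    refine ⟨Polynomial.X ^ m - Polynomial.C v, Polynomial.monic_X_pow_sub_C v hm, ?_⟩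
    simp only [Polynomial.eval₂_sub, Polynomial.eval₂_pow, Polynomial.eval₂_X,
      Polynomial.eval₂_C]
    rw [sub_eq_zero]
    exact hXm
  have := finiteDimensional_FL L
  have hgood : ∀ z ∈ (FL L)⟮phiS x'⟯, ∃ w : Qq, phiS w = z ∧ IsQuotL L.Γ (phiH w) := by
    intro z hz
    induction hz using IntermediateField.adjoin_induction with
    | mem z hz =>
      rw [Set.mem_singleton_iff] at hz
      subst hz
      exact ⟨x', rfl, hx' ▸ hQ⟩
    | algebraMap θ =>
      exact ⟨iotaQL L θ, phiS_iotaQL L θ, by rw [← dict_iotaL_eq]; exact isQuotL_iotaL L θ⟩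
    | add a b _ _ ha hb =>
      obtain ⟨wa, ha1, ha2⟩ := ha
      obtain ⟨wb, hb1, hb2⟩ := hb
      exact ⟨wa + wb, by rw [RingHom.map_add, ha1, hb1], by rw [RingHom.map_add]; exact ha2.add hb2⟩
    | inv a _ ha =>
      obtain ⟨wa, ha1, ha2⟩ := ha
      exact ⟨wa⁻¹, by rw [map_inv₀ phiS, ha1], by rw [map_inv₀ phiH]; exact ha2.inv⟩
    | mul a b _ _ ha hb =>
      obtain ⟨wa, ha1, ha2⟩ := ha
      obtain ⟨wb, hb1, hb2⟩ := hb
      exact ⟨wa * wb, by rw [RingHom.map_mul, ha1, hb1], by rw [RingHom.map_mul]; exact ha2.mul hb2⟩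
  have hmem : phiS x' ∈ barL L := by
    apply mem_of_not_li (barL L) (jL L) (transcendental_jL L) (phiS x') hint
    intro z hz
    obtain ⟨w, hw, hwQ⟩ := hgood z hz
    obtain ⟨s, hs⟩ := not_linearIndependent_pow_of_isQuotL L _ hwQ
    rw [finrank_FL]
    refine ⟨s, ?_⟩
    by_contra hcon
    push Not at hcon
    apply hs
    have h2 := phiH_linearIndependent
      (fun i : Fin (s + 1) × Fin (Nat.card (QL L) + 1) => jQ 1 ^ (i.1 : ℕ) * w ^ (i.2 : ℕ)) (by
        intro l hl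
        apply hcon l
        rw [← hl]
        refine Finset.sum_congr rfl fun i _ => ?_
        rw [RingHom.map_mul, RingHom.map_pow, RingHom.map_pow, hw, phiS_jQ,
          algebraMap_laurentSeries_eq_single, qExpand_one_apply]
        rfl)
    convert h2 using 1
    ext1 i
    simp only [RingHom.map_mul, RingHom.map_pow, phiH_jQ, jHd_one]
  refine ⟨⟨phiS x', hmem⟩, ?_⟩
  rw [dict_iotaL_eq, ← hx']
  congr 1
  apply phiS.injective
  rw [phiS_iotaQL]

end Fermat.Agent.S48.M
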